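/-
P-MW (S17), BLOCK C = the local product formula `LPFStatement` -- INTERFACES
(sub-architect helper89, row 695).

Chain (all steps are rows of the subtasks table, project P-MW, names `LPF-*`):

  LPFStatement 𝒞
    ⇐ [LPF-L1]  LatticeDetStatement           (Mathlib only, from Cauchy-Binet)
     + [LPF-L3] newton determinant + assembly (helper89, `LpfAssembly.lean`)
     + CoordStatement 𝒞
  CoordStatement 𝒞
    ⇐ [K9] InterpolationStatement             (row 686)
     + [LPF-SEP]    SeparationStatement       (Mathlib only)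
     + [LPF-NEWTON] NewtonConvStatement       (Mathlib only)
     + [LPF-TAYLOR] TaylorStatement           (Mathlib only)
     + a `PlaceSystem 𝒞` (the closed points of the complete curve over `ℚ̄`, their local rings,
       germs of the elements of `W m`, surjectivity of jets) with its `CentreStatement`
       (every point with values in a test object has a centre).

Nothing is proved here.
-/
import Fermat.Agent.H92.MW.CoreInterfaces

set_option autoImplicit false

noncomputable section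

open Module TensorProduct

namespace Fermat.Agent.H89.MW

open Fermat.Agent.H92.MW

/-! ### Linear algebra over a valuation ring -/

/-- **[LPF-L1] Lattice determinant.**  If `S` (`d × n`) has entries in `V` and a right inverse
modulo the maximal ideal, then the sup of the valuations of the maximal minors of `B * S`
is the valuation of `det B`. -/
def LatticeDetStatement : Prop :=
  ∀ (𝒦 : Type) [Field 𝒦] (V : ValuationSubring 𝒦) (d n : ℕ)
    (B : Matrix (Fin d) (Fin d) 𝒦) (S : Matrix (Fin d) (Fin n) 𝒦)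
    (T : Matrix (Fin n) (Fin d) 𝒦),
    (∀ a j, S a j ∈ V) → (∀ j a, T j a ∈ V) →
    (∀ a b, V.valuation ((S * T - (1 : Matrix (Fin d) (Fin d) 𝒦)) a b) < 1) →
    (Finset.univ.sup fun J => V.valuation (minorVec (B * S) J)) = V.valuation B.det

/-- The "Newton matrix" of a family of points with centres `c a`, coordinates `z a` and
normalisers `ν a`: the entry `(a, b)` is `ν a * ∏_{b' < b, c b' = c b} (z a - z b')` if `a` and
`b` have the same centre and `0` otherwise.  It is lower triangular. -/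
def newtonMatrix {𝒦 : Type} [Field 𝒦] {Cen : Type} {d : ℕ} (c : Fin d → Cen)
    (z ν : Fin d → 𝒦) : Matrix (Fin d) (Fin d) 𝒦 :=
  open Classical in
  fun a b => if c a = c b then
    ν a * ∏ b' ∈ Finset.univ.filter (fun b' : Fin d => b' < b ∧ c b' = c b), (z a - z b')
  else 0

/-- **[LPF-NEWTON] From the monomial basis to the Newton basis.**  A polynomial function
`x ↦ ∑ r_i x^i` of degree `< n` is `x ↦ ∑ s_b ∏_{b' < b} (x - z_b')`, and `s ≡ r` modulo any
ideal containing the nodes. -/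
def NewtonConvStatement : Prop :=
  ∀ (A : Type) [CommRing A] (I : Ideal A) (n : ℕ) (z r : Fin n → A), (∀ i, z i ∈ I) →
    ∃ s : Fin n → A, (∀ i, s i - r i ∈ I) ∧
      ∀ x : A, ∑ i : Fin n, r i * x ^ (i : ℕ)
        = ∑ b : Fin n, s b * ∏ b' ∈ Finset.univ.filter (fun b' : Fin n => b' < b), (x - z b')

/-! ### Commutative algebra of discrete valuation rings over a field -/

/-- **[LPF-TAYLOR] Taylor coefficients.**  In a discrete valuation ring `O` over a field `k`
with residue field `k` and uniformizer `u`, every element has a unique Taylor expansion modulo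
`u ^ n`, and the coefficients are `k`-linear. -/
def TaylorStatement : Prop :=
  ∀ (k O : Type) [Field k] [CommRing O] [IsDomain O] [IsDiscreteValuationRing O] [Algebra k O]
    (u : O), Irreducible u →
    (∀ h : O, ∃ c : k, h - algebraMap k O c ∈ IsLocalRing.maximalIdeal O) →
    ∀ n : ℕ, ∃ τ : O →ₗ[k] (Fin n → k),
      (∀ h : O, h - ∑ i : Fin n, algebraMap k O (τ h i) * u ^ (i : ℕ) ∈ Ideal.span {u ^ n}) ∧
      (∀ (h : O) (c : Fin n → k),
        h - ∑ i : Fin n, algebraMap k O (c i) * u ^ (i : ℕ) ∈ Ideal.span {u ^ n} → c = τ h)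

/-- **[LPF-SEP] Separation.**  `O` a discrete valuation ring, essentially of finite type over a
field `k`, with residue field `k` and uniformizer `u`; `V` a valuation ring over `k`.  Two
`k`-algebra homomorphisms `O → V` which map `u` to the same element of the maximal ideal are
equal.  (Same hypotheses as `InterpolationStatement`; proof: `M := D[φ(O)] ⊆ V × V`,
`D` the diagonal, is a finite `V`-module, `M = D + (z, z) M`, Nakayama.) -/
def SeparationStatement : Prop :=
  ∀ (k O V : Type) [Field k] [CommRing O] [IsDomain O] [IsDiscreteValuationRing O] [Algebra k O]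
    [CommRing V] [IsDomain V] [ValuationRing V] [Algebra k V]
    (u : O) (P P' : O →ₐ[k] V), Irreducible u →
    (∀ h : O, ∃ c : k, h - algebraMap k O c ∈ IsLocalRing.maximalIdeal O) →
    (∃ S : Finset O, ∀ h : O, ∃ p q : O, p ∈ Algebra.adjoin k (S : Set O) ∧
      q ∈ Algebra.adjoin k (S : Set O) ∧ IsUnit q ∧ h * q = p) →
    P u ∈ IsLocalRing.maximalIdeal V → P u = P' u → P = P'

/-! ### Places of the datum -/

variable {R : Type} [CommRing R] [Algebra ℚ R] [IsDedekindDomain R]

/-- `W m` over `ℚ̄`, as a subspace of `ℚ̄ ⊗ R`. -/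
abbrev WBar (𝒞 : MWDatum R) (m : ℕ) : Submodule QQbar (QQbar ⊗[ℚ] R) :=
  (𝒞.W m).baseChange QQbar

/-- The inclusion `W m → ℚ̄ ⊗ W m`, `f ↦ 1 ⊗ f` (as a plain function). -/
def toWBar (𝒞 : MWDatum R) (m : ℕ) (f : 𝒞.W m) : WBar 𝒞 m :=
  ⟨(1 : QQbar) ⊗ₜ[ℚ] (f : R), Submodule.tmul_mem_baseChange_of_mem 1 f.2⟩

lemma toWBar_coe (𝒞 : MWDatum R) (m : ℕ) (f : 𝒞.W m) :
    ((toWBar 𝒞 m f : WBar 𝒞 m) : QQbar ⊗[ℚ] R) = (1 : QQbar) ⊗ₜ[ℚ] (f : R) := rfl

/-- A system of places for the datum: "the closed points `c` of the complete curve over `ℚ̄`",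
each with its local ring `O c` (a discrete valuation ring, essentially of finite type over `ℚ̄`,
with residue field `ℚ̄`), a uniformizer `u c`, a normalisation exponent `ε c` (`0` at the finite
places, `1` at `∞`) and the germ maps `germ c m : ℚ̄ ⊗ W m → O c`
(`f ↦ f * u ^ (ε c * m)`), such that jets are surjective: for distinct places `c` with
multiplicities `n c`, `∑ n c + m₀ ≤ m`, the elements of `ℚ̄ ⊗ W m` have arbitrary Taylor
expansions modulo `u c ^ n c` at the places `c`. -/
structure PlaceSystem (𝒞 : MWDatum R) where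
  /-- the places -/
  Pl : Type
  /-- the local rings -/
  O : Pl → Type
  [commRing : ∀ c, CommRing (O c)]
  [isDomain : ∀ c, IsDomain (O c)]
  [dvr : ∀ c, IsDiscreteValuationRing (O c)]
  [algebra : ∀ c, Algebra QQbar (O c)]
  /-- uniformizers -/
  u : ∀ c, O c
  /-- normalisation exponents -/
  ε : Pl → ℕ
  u_irr : ∀ c, Irreducible (u c)
  res : ∀ (c : Pl) (h : O c), ∃ a : QQbar,
    h - algebraMap QQbar (O c) a ∈ IsLocalRing.maximalIdeal (O c)
  eft : ∀ c : Pl, ∃ S : Finset (O c), ∀ h : O c, ∃ p q : O c,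
    p ∈ Algebra.adjoin QQbar (S : Set (O c)) ∧ q ∈ Algebra.adjoin QQbar (S : Set (O c)) ∧
      IsUnit q ∧ h * q = p
  /-- germs of the elements of `ℚ̄ ⊗ W m`, normalised at level `m` -/
  germ : ∀ (c : Pl) (m : ℕ), WBar 𝒞 m →ₗ[QQbar] O c
  jets : ∀ (m : ℕ) (s : Finset Pl) (n : Pl → ℕ), (∑ c ∈ s, n c) + 𝒞.m₀ ≤ m →
    ∀ y : ∀ c : Pl, Fin (n c) → QQbar, ∃ f : WBar 𝒞 m, ∀ c ∈ s,
      germ c m f - ∑ j : Fin (n c), algebraMap QQbar (O c) (y c j) * u c ^ (j : ℕ)
        ∈ Ideal.span {u c ^ n c}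

attribute [instance] PlaceSystem.commRing PlaceSystem.isDomain PlaceSystem.dvr
  PlaceSystem.algebra

/-- **[LPF-CEN] Centres.**  Every point `P : R → 𝒦` with values in a test object `(𝒦, V)` has a
centre `c` in the place system and extends to a local homomorphism `loc c P : O c → V`
compatible with the germ maps:
`loc (germ c m f) = P f * (loc u) ^ (ε c * m)` and `|loc u| ^ (ε c * e) * max (1, |P t|) = 1`. -/
def CentreStatement (𝒞 : MWDatum R) (𝔖 : PlaceSystem 𝒞) : Prop :=
  ∀ (𝒦 : Type) [Field 𝒦] [Algebra ℚ 𝒦] [IsAlgClosed 𝒦] (V : ValuationSubring 𝒦),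
    IsQbarValRing V → ∀ ι : QQbar →ₐ[ℚ] 𝒦,
    ∃ (cen : (R →ₐ[ℚ] 𝒦) → 𝔖.Pl) (loc : ∀ c : 𝔖.Pl, (R →ₐ[ℚ] 𝒦) → (𝔖.O c →+* 𝒦)),
      ∀ P : R →ₐ[ℚ] 𝒦,
        (∀ h, loc (cen P) P h ∈ V) ∧
        (∀ a : QQbar, loc (cen P) P (algebraMap QQbar (𝔖.O (cen P)) a) = ι a) ∧
        V.valuation (loc (cen P) P (𝔖.u (cen P))) < 1 ∧
        V.valuation (loc (cen P) P (𝔖.u (cen P))) ^ (𝔖.ε (cen P) * 𝒞.e)
          * max 1 (V.valuation (P 𝒞.t)) = 1 ∧
        ∀ (m : ℕ) (f : 𝒞.W m),
          loc (cen P) P (𝔖.germ (cen P) m (toWBar 𝒞 m f))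
            = P (f : R) * loc (cen P) P (𝔖.u (cen P)) ^ (𝔖.ε (cen P) * m)

/-- **Coordinates.**  For every test object there are a centre map, a coordinate `z` and a
normaliser `π` on the `𝒦`-points such that the evaluation matrix of `d` distinct points at level
`m ≥ d + m₀` is `newtonMatrix * S` with `S` integral and surjective modulo the maximal ideal. -/
def CoordStatement (𝒞 : MWDatum R) : Prop :=
  ∀ (𝒦 : Type) [Field 𝒦] [Algebra ℚ 𝒦] [IsAlgClosed 𝒦] (V : ValuationSubring 𝒦),
    IsQbarValRing V →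
    ∃ (Cen : Type) (cen : (R →ₐ[ℚ] 𝒦) → Cen) (z π : (R →ₐ[ℚ] 𝒦) → 𝒦),
      (∀ P, V.valuation (π P) ^ 𝒞.e = max 1 (V.valuation (P 𝒞.t))) ∧
      ∀ (m d : ℕ), d + 𝒞.m₀ ≤ m → ∀ P : Fin d → (R →ₐ[ℚ] 𝒦), Function.Injective P →
        ∃ (S : Matrix (Fin d) (Fin (finrank ℚ (𝒞.W m))) 𝒦)
          (T : Matrix (Fin (finrank ℚ (𝒞.W m))) (Fin d) 𝒦),
          (∀ a j, S a j ∈ V) ∧ (∀ j a, T j a ∈ V) ∧
          (∀ a b, V.valuation ((S * T - (1 : Matrix (Fin d) (Fin d) 𝒦)) a b) < 1) ∧
          evalMatrix 𝒞 m P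
            = newtonMatrix (fun a => cen (P a)) (fun a => z (P a)) (fun a => π (P a) ^ m) * S

end Fermat.Agent.H89.MW

end
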