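/-
P-MW (S17), BLOCK C = the local product formula -- GEOMETRY INTERFACES
(sub-architect helper89, row 695).

Goal of the geometry:  `∃ 𝔖 : PlaceSystem 𝒞, CentreStatement 𝒞 𝔖`   (`GeoStatement 𝒞`).

Rows (project P-MW):
* [LPF-G-BAR]     `BarFacts 𝒞`        : the filtration `WBar m = ℚ̄ ⊗ W m` of `ℚ̄ ⊗ R`
                                        (base change of the axioms, pole order, Nullstellensatz)
* [LPF-G-NORMINF] `NormInfStatement 𝒞`: a ring hom `φ : ℚ̄ ⊗ R → 𝒦` either has values in `V` or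
                                        satisfies `|φ a| ^ e = |φ t| ^ (pole a)`
* [LPF-G-JETS]    `JetsRbStatement 𝒞` : Riemann-Roch + CRT: prescribed jets at finitely many
                                        maximal ideals and prescribed leading part at `∞`
* [LPF-G-FIN]     `Nonempty (FinSystem 𝒞)` : the finite places (localisations at maximal ideals)
* [LPF-G-INF]     `Nonempty (InfPlace 𝒞)`  : the place `∞` (valuation ring of the pole order)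
* [LPF-G-ASM]     `geo_of_parts`      : FinSystem + InfPlace + Jets ⟹ `GeoStatement 𝒞`

Nothing is proved here.
-/
import Fermat.Agent.H89.MW.LpfInterfaces

set_option autoImplicit false

noncomputable section

open Module TensorProduct

namespace Fermat.Agent.H89.MW

open Fermat.Agent.H92.MW

variable {R : Type} [CommRing R] [Algebra ℚ R] [IsDedekindDomain R]

/-- Pole order at `∞` of an element of `ℚ̄ ⊗ R`: the least `m` with `a ∈ WBar m`. -/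
def poleB (𝒞 : MWDatum R) (a : QQbar ⊗[ℚ] R) : ℕ := sInf {m : ℕ | a ∈ WBar 𝒞 m}

/-- `t` as an element of `ℚ̄ ⊗ R`. -/
def tBar (𝒞 : MWDatum R) : QQbar ⊗[ℚ] R := (1 : QQbar) ⊗ₜ[ℚ] 𝒞.t

/-- **[LPF-G-BAR]** Basic facts on the filtration of `ℚ̄ ⊗ R` by pole order. -/
structure BarFacts (𝒞 : MWDatum R) : Prop where
  mono : Monotone (WBar 𝒞)
  exhaust : ∀ a : QQbar ⊗[ℚ] R, ∃ m : ℕ, a ∈ WBar 𝒞 m
  mul_mem : ∀ (m m' : ℕ) (a b : QQbar ⊗[ℚ] R), a ∈ WBar 𝒞 m → b ∈ WBar 𝒞 m' →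
    a * b ∈ WBar 𝒞 (m + m')
  const_mem : ∀ c : QQbar, algebraMap QQbar (QQbar ⊗[ℚ] R) c ∈ WBar 𝒞 0
  eq_const : ∀ a ∈ WBar 𝒞 0, ∃ c : QQbar, a = algebraMap QQbar (QQbar ⊗[ℚ] R) c
  /-- the graded pieces have dimension `≤ 1` -/
  step : ∀ (m : ℕ) (a b : QQbar ⊗[ℚ] R), a ∈ WBar 𝒞 (m + 1) → b ∈ WBar 𝒞 (m + 1) →
    b ∉ WBar 𝒞 m → ∃ c : QQbar, a - c • b ∈ WBar 𝒞 m
  /-- beyond `m₀` every pole order occurs -/
  gap : ∀ m : ℕ, 𝒞.m₀ ≤ m → ∃ b ∈ WBar 𝒞 (m + 1), b ∉ WBar 𝒞 m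
  finite : ∀ m : ℕ, Module.Finite QQbar (WBar 𝒞 m)
  finrank_eq : ∀ m : ℕ, finrank QQbar (WBar 𝒞 m) = finrank ℚ (𝒞.W m)
  /-- the images of a `ℚ`-basis of `W m` span `WBar m` over `ℚ̄` -/
  span : ∀ (m : ℕ) (f : WBar 𝒞 m), ∃ x : Fin (finrank ℚ (𝒞.W m)) → QQbar,
    f = ∑ j, x j • toWBar 𝒞 m (Module.finBasis ℚ (𝒞.W m) j)
  t_mem : tBar 𝒞 ∈ WBar 𝒞 𝒞.e
  t_not_mem : tBar 𝒞 ∉ WBar 𝒞 (𝒞.e - 1)
  /-- the pole order is a valuation -/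
  pole_mul : ∀ a b : QQbar ⊗[ℚ] R, a ≠ 0 → b ≠ 0 → poleB 𝒞 (a * b) = poleB 𝒞 a + poleB 𝒞 b
  mem_iff_pole : ∀ (a : QQbar ⊗[ℚ] R) (m : ℕ), a ∈ WBar 𝒞 m ↔ poleB 𝒞 a ≤ m
  finiteType : Algebra.FiniteType QQbar (QQbar ⊗[ℚ] R)
  not_isField : ¬ IsField (QQbar ⊗[ℚ] R)
  /-- Nullstellensatz: the residue fields of `ℚ̄ ⊗ R` are `ℚ̄` -/
  null : ∀ 𝔪 : Ideal (QQbar ⊗[ℚ] R), 𝔪.IsMaximal → ∀ a : QQbar ⊗[ℚ] R,
    ∃ c : QQbar, a - algebraMap QQbar (QQbar ⊗[ℚ] R) c ∈ 𝔪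

/-- **[LPF-G-NORMINF]** (C3) A ring homomorphism `φ : ℚ̄ ⊗ R → 𝒦` mapping `ℚ̄` into a valuation
ring `V` either has all its values in `V`, or `|φ t| > 1` and `|φ a| ^ e = |φ t| ^ (pole a)` for
all `a ≠ 0`. -/
def NormInfStatement (𝒞 : MWDatum R) : Prop :=
  ∀ (𝒦 : Type) [Field 𝒦] (V : ValuationSubring 𝒦) (φ : (QQbar ⊗[ℚ] R) →+* 𝒦),
    (∀ c : QQbar, φ (algebraMap QQbar (QQbar ⊗[ℚ] R) c) ∈ V) →
    (∀ a, φ a ∈ V) ∨
    (1 < V.valuation (φ (tBar 𝒞)) ∧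
      ∀ a : QQbar ⊗[ℚ] R, a ≠ 0 →
        V.valuation (φ a) ^ 𝒞.e = V.valuation (φ (tBar 𝒞)) ^ poleB 𝒞 a)

/-- **[LPF-G-JETS]** Riemann-Roch and the Chinese remainder theorem: for finitely many maximal
ideals `𝔪` with multiplicities `n 𝔪` and a multiplicity `nInf` at `∞`, with
`∑ n 𝔪 + nInf + m₀ ≤ m`, there is `f ∈ WBar m` with prescribed residues modulo `𝔪 ^ n 𝔪` and
prescribed class modulo `WBar (m - nInf)`. -/
def JetsRbStatement (𝒞 : MWDatum R) : Prop :=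
  ∀ (m nInf : ℕ) (s : Finset (Ideal (QQbar ⊗[ℚ] R))) (n : Ideal (QQbar ⊗[ℚ] R) → ℕ),
    (∀ 𝔪 ∈ s, 𝔪.IsMaximal) → (∑ 𝔪 ∈ s, n 𝔪) + nInf + 𝒞.m₀ ≤ m →
    ∀ (y : Ideal (QQbar ⊗[ℚ] R) → QQbar ⊗[ℚ] R) (g : QQbar ⊗[ℚ] R), g ∈ WBar 𝒞 m →
      ∃ f ∈ WBar 𝒞 m, (∀ 𝔪 ∈ s, f - y 𝔪 ∈ 𝔪 ^ n 𝔪) ∧ f - g ∈ WBar 𝒞 (m - nInf)

/-- The finite places: discrete valuation rings `O c` (localisations of `ℚ̄ ⊗ R` at the maximal
ideals `ideal c`) with the data needed for the local product formula. -/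
structure FinSystem (𝒞 : MWDatum R) where
  /-- the finite places -/
  Pl : Type
  /-- the local rings -/
  O : Pl → Type
  [commRing : ∀ c, CommRing (O c)]
  [isDomain : ∀ c, IsDomain (O c)]
  [dvr : ∀ c, IsDiscreteValuationRing (O c)]
  [algebra : ∀ c, Algebra QQbar (O c)]
  /-- uniformizers -/
  u : ∀ c, O c
  u_irr : ∀ c, Irreducible (u c)
  res : ∀ (c : Pl) (h : O c), ∃ a : QQbar,
    h - algebraMap QQbar (O c) a ∈ IsLocalRing.maximalIdeal (O c)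
  eft : ∀ c : Pl, ∃ S : Finset (O c), ∀ h : O c, ∃ p q : O c,
    p ∈ Algebra.adjoin QQbar (S : Set (O c)) ∧ q ∈ Algebra.adjoin QQbar (S : Set (O c)) ∧
      IsUnit q ∧ h * q = p
  /-- the maximal ideal of `ℚ̄ ⊗ R` of a finite place -/
  ideal : Pl → Ideal (QQbar ⊗[ℚ] R)
  ideal_max : ∀ c, (ideal c).IsMaximal
  ideal_inj : Function.Injective ideal
  /-- the localisation maps -/
  emb : ∀ c, (QQbar ⊗[ℚ] R) →ₐ[QQbar] O c
  emb_mem : ∀ (c : Pl) (n : ℕ) (f : QQbar ⊗[ℚ] R),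
    emb c f ∈ Ideal.span {u c ^ n} ↔ f ∈ ideal c ^ n
  emb_surj : ∀ (c : Pl) (n : ℕ) (h : O c), ∃ f : QQbar ⊗[ℚ] R,
    emb c f - h ∈ Ideal.span {u c ^ n}
  /-- points with values in `V` have a centre at a finite place -/
  centre : ∀ (𝒦 : Type) [Field 𝒦] [Algebra ℚ 𝒦] [IsAlgClosed 𝒦] (V : ValuationSubring 𝒦),
    IsQbarValRing V → ∀ (ι : QQbar →ₐ[ℚ] 𝒦) (P : R →ₐ[ℚ] 𝒦), (∀ r : R, P r ∈ V) →
    ∃ (c : Pl) (loc : O c →+* 𝒦),
      (∀ h, loc h ∈ V) ∧ (∀ a : QQbar, loc (algebraMap QQbar (O c) a) = ι a) ∧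
      V.valuation (loc (u c)) < 1 ∧
      ∀ r : R, loc (emb c ((1 : QQbar) ⊗ₜ[ℚ] r)) = P r

attribute [instance] FinSystem.commRing FinSystem.isDomain FinSystem.dvr FinSystem.algebra

/-- The place `∞`: a discrete valuation ring `O` (the valuation ring of the pole order in the
fraction field of `ℚ̄ ⊗ R`) with uniformizer `u`, germ maps `germ m f = f * u ^ m` and the data
needed for the local product formula. -/
structure InfPlace (𝒞 : MWDatum R) where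
  /-- the local ring at `∞` -/
  O : Type
  [commRing : CommRing O]
  [isDomain : IsDomain O]
  [dvr : IsDiscreteValuationRing O]
  [algebra : Algebra QQbar O]
  /-- a uniformizer -/
  u : O
  u_irr : Irreducible u
  res : ∀ h : O, ∃ a : QQbar, h - algebraMap QQbar O a ∈ IsLocalRing.maximalIdeal O
  eft : ∃ S : Finset O, ∀ h : O, ∃ p q : O,
    p ∈ Algebra.adjoin QQbar (S : Set O) ∧ q ∈ Algebra.adjoin QQbar (S : Set O) ∧
      IsUnit q ∧ h * q = p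
  /-- `germ m f = f * u ^ m` for `f ∈ WBar m` -/
  germ : ∀ m : ℕ, WBar 𝒞 m →ₗ[QQbar] O
  germ_mem : ∀ (m n : ℕ) (f : WBar 𝒞 m), n ≤ m →
    (germ m f ∈ Ideal.span {u ^ n} ↔ (f : QQbar ⊗[ℚ] R) ∈ WBar 𝒞 (m - n))
  germ_surj : ∀ (m n : ℕ), n + 𝒞.m₀ ≤ m → ∀ h : O, ∃ f : WBar 𝒞 m,
    germ m f - h ∈ Ideal.span {u ^ n}
  /-- points with a value outside `V` have centre `∞` -/
  centre : ∀ (𝒦 : Type) [Field 𝒦] [Algebra ℚ 𝒦] [IsAlgClosed 𝒦] (V : ValuationSubring 𝒦),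
    IsQbarValRing V → ∀ (ι : QQbar →ₐ[ℚ] 𝒦) (P : R →ₐ[ℚ] 𝒦), (∃ r : R, P r ∉ V) →
    ∃ loc : O →+* 𝒦,
      (∀ h, loc h ∈ V) ∧ (∀ a : QQbar, loc (algebraMap QQbar O a) = ι a) ∧
      V.valuation (loc u) < 1 ∧
      V.valuation (loc u) ^ 𝒞.e * max 1 (V.valuation (P 𝒞.t)) = 1 ∧
      ∀ (m : ℕ) (f : 𝒞.W m), loc (germ m (toWBar 𝒞 m f)) = P (f : R) * loc u ^ m

attribute [instance] InfPlace.commRing InfPlace.isDomain InfPlace.dvr InfPlace.algebra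

/-- **The geometry**: a place system with centres. -/
def GeoStatement (𝒞 : MWDatum R) : Prop :=
  ∃ 𝔖 : PlaceSystem 𝒞, CentreStatement 𝒞 𝔖

end Fermat.Agent.H89.MW

end
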