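/-
P-MW (S17), BLOCK C, row 849 [LPF-G-INF], part 1: the pole-order valuation on `ℚ̄ ⊗ R` and on its
fraction field, the ring `OInf` of functions regular at `∞`, the uniformizer.
-/
import Fermat.Agent.H89.MW.LpfGeoInterfaces

set_option autoImplicit false
set_option linter.unusedSectionVars false

noncomputable section

open Module TensorProduct

namespace Fermat.Agent.H89.MW

open Fermat.Agent.H92.MW

variable {R : Type} [CommRing R] [Algebra ℚ R] [IsDedekindDomain R]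

/-! ### The pole order -/

section pole

variable {𝒞 : MWDatum R} (hB : BarFacts 𝒞)

include hB

lemma infPoleB_le_iff (a : QQbar ⊗[ℚ] R) (m : ℕ) : poleB 𝒞 a ≤ m ↔ a ∈ WBar 𝒞 m :=
  (hB.mem_iff_pole a m).symm

lemma infMem_poleB (a : QQbar ⊗[ℚ] R) : a ∈ WBar 𝒞 (poleB 𝒞 a) :=
  (hB.mem_iff_pole a _).2 le_rfl

lemma infPoleB_zero : poleB 𝒞 (0 : QQbar ⊗[ℚ] R) = 0 :=
  Nat.le_zero.1 ((infPoleB_le_iff hB 0 0).2 (Submodule.zero_mem _))

lemma infPoleB_algebraMap (c : QQbar) : poleB 𝒞 (algebraMap QQbar (QQbar ⊗[ℚ] R) c) = 0 :=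
  Nat.le_zero.1 ((infPoleB_le_iff hB _ 0).2 (hB.const_mem c))

lemma infPoleB_one : poleB 𝒞 (1 : QQbar ⊗[ℚ] R) = 0 := by
  have := infPoleB_algebraMap hB 1
  rwa [map_one] at this

lemma infPoleB_add_le (a b : QQbar ⊗[ℚ] R) :
    poleB 𝒞 (a + b) ≤ max (poleB 𝒞 a) (poleB 𝒞 b) := by
  rw [infPoleB_le_iff hB]
  exact Submodule.add_mem _ (hB.mono (le_max_left _ _) (infMem_poleB hB a))
    (hB.mono (le_max_right _ _) (infMem_poleB hB b))

lemma infPoleB_smul_le (c : QQbar) (a : QQbar ⊗[ℚ] R) : poleB 𝒞 (c • a) ≤ poleB 𝒞 a := by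
  rw [infPoleB_le_iff hB]
  exact Submodule.smul_mem _ c (infMem_poleB hB a)

lemma infPoleB_neg (a : QQbar ⊗[ℚ] R) : poleB 𝒞 (-a) = poleB 𝒞 a := by
  apply le_antisymm
  · rw [infPoleB_le_iff hB]; exact Submodule.neg_mem _ (infMem_poleB hB a)
  · rw [infPoleB_le_iff hB]
    have := Submodule.neg_mem _ (infMem_poleB hB (-a))
    rwa [neg_neg] at this

lemma infPoleB_tBar : poleB 𝒞 (tBar 𝒞) = 𝒞.e := by
  apply le_antisymm
  · exact (infPoleB_le_iff hB _ _).2 hB.t_mem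
  · by_contra h
    have h1 : poleB 𝒞 (tBar 𝒞) ≤ 𝒞.e - 1 := by omega
    exact hB.t_not_mem ((infPoleB_le_iff hB _ _).1 h1)

lemma infTBar_ne_zero : tBar 𝒞 ≠ 0 := by
  intro h
  have h1 := infPoleB_tBar hB
  rw [h, infPoleB_zero hB] at h1
  exact absurd h1.symm (Nat.pos_iff_ne_zero.1 𝒞.e_pos)

/-- beyond `m₀` every pole order occurs -/
lemma infExists_poleB_eq (n : ℕ) (hn : 𝒞.m₀ + 1 ≤ n) :
    ∃ b : QQbar ⊗[ℚ] R, b ≠ 0 ∧ poleB 𝒞 b = n := by
  obtain ⟨k, rfl⟩ : ∃ k, n = k + 1 := ⟨n - 1, by omega⟩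
  obtain ⟨b, hb1, hb2⟩ := hB.gap k (by omega)
  have h1 : poleB 𝒞 b ≤ k + 1 := (infPoleB_le_iff hB _ _).2 hb1
  have h2 : ¬ poleB 𝒞 b ≤ k := fun h => hb2 ((infPoleB_le_iff hB _ _).1 h)
  refine ⟨b, ?_, by omega⟩
  rintro rfl
  rw [infPoleB_zero hB] at h2
  exact h2 (Nat.zero_le _)

/-- the graded pieces have dimension `≤ 1`, in terms of pole orders -/
lemma infStep (a b : QQbar ⊗[ℚ] R) (hab : poleB 𝒞 a = poleB 𝒞 b)
    (hpos : 0 < poleB 𝒞 b) : ∃ c : QQbar, poleB 𝒞 (a - c • b) < poleB 𝒞 b := by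
  obtain ⟨k, hk⟩ : ∃ k, poleB 𝒞 b = k + 1 := ⟨poleB 𝒞 b - 1, by omega⟩
  have ha1 : a ∈ WBar 𝒞 (k + 1) := (infPoleB_le_iff hB _ _).1 (by omega)
  have hb1 : b ∈ WBar 𝒞 (k + 1) := (infPoleB_le_iff hB _ _).1 (by omega)
  have hb2 : b ∉ WBar 𝒞 k := fun h => by
    have := (infPoleB_le_iff hB _ _).2 h
    omega
  obtain ⟨c, hc⟩ := hB.step k a b ha1 hb1 hb2
  refine ⟨c, ?_⟩
  have := (infPoleB_le_iff hB _ _).2 hc
  omega

end pole

/-! ### The valuation -/

section val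

variable {𝒞 : MWDatum R} (hB : BarFacts 𝒞) [IsDomain (QQbar ⊗[ℚ] R)]

open Classical in
/-- the pole-order valuation on `ℚ̄ ⊗ R`: `a ↦ exp (pole a)` -/
def infValA : Valuation (QQbar ⊗[ℚ] R) (WithZero (Multiplicative ℤ)) where
  toFun a := if a = 0 then 0 else WithZero.exp ((poleB 𝒞 a : ℕ) : ℤ)
  map_zero' := by simp
  map_one' := by
    rw [if_neg one_ne_zero, infPoleB_one hB]
    simp
  map_mul' a b := by
    by_cases ha : a = 0
    · simp [ha]
    by_cases hb : b = 0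
    · simp [hb]
    rw [if_neg ha, if_neg hb, if_neg (mul_ne_zero ha hb), hB.pole_mul a b ha hb, Nat.cast_add,
      WithZero.exp_add]
  map_add_le_max' a b := by
    by_cases ha : a = 0
    · simp [ha]
    by_cases hb : b = 0
    · simp [hb]
    by_cases hab : a + b = 0
    · simp [hab]
    rw [if_neg ha, if_neg hb, if_neg hab, le_max_iff, WithZero.exp_le_exp, WithZero.exp_le_exp,
      Nat.cast_le, Nat.cast_le, ← le_max_iff]
    exact infPoleB_add_le hB a b

open Classical in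
lemma infValA_apply (a : QQbar ⊗[ℚ] R) (ha : a ≠ 0) :
    infValA hB a = WithZero.exp ((poleB 𝒞 a : ℕ) : ℤ) := by
  show (if a = 0 then 0 else WithZero.exp ((poleB 𝒞 a : ℕ) : ℤ)) = _
  rw [if_neg ha]

lemma infValA_ne_zero (a : QQbar ⊗[ℚ] R) (ha : a ≠ 0) : infValA hB a ≠ 0 := by
  rw [infValA_apply hB a ha]
  exact WithZero.exp_ne_zero

lemma infValA_supp : nonZeroDivisors (QQbar ⊗[ℚ] R) ≤ (infValA hB).supp.primeCompl := by
  intro a ha
  have ha0 : a ≠ 0 := nonZeroDivisors.ne_zero ha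
  show a ∉ (infValA hB).supp
  rw [Valuation.mem_supp_iff]
  exact infValA_ne_zero hB a ha0

/-- the pole-order valuation on the fraction field of `ℚ̄ ⊗ R` -/
def infVal : Valuation (FractionRing (QQbar ⊗[ℚ] R)) (WithZero (Multiplicative ℤ)) :=
  (infValA hB).extendToLocalization (infValA_supp hB) (FractionRing (QQbar ⊗[ℚ] R))

lemma infVal_algebraMap (a : QQbar ⊗[ℚ] R) :
    infVal hB (algebraMap (QQbar ⊗[ℚ] R) (FractionRing (QQbar ⊗[ℚ] R)) a) = infValA hB a :=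
  Valuation.extendToLocalization_apply_map_apply _ _ _ a

lemma infVal_algebraMap_of_ne (a : QQbar ⊗[ℚ] R) (ha : a ≠ 0) :
    infVal hB (algebraMap (QQbar ⊗[ℚ] R) (FractionRing (QQbar ⊗[ℚ] R)) a)
      = WithZero.exp ((poleB 𝒞 a : ℕ) : ℤ) := by
  rw [infVal_algebraMap, infValA_apply hB a ha]

/-- every element of the fraction field is a quotient -/
lemma infExists_frac (x : FractionRing (QQbar ⊗[ℚ] R)) :
    ∃ a b : QQbar ⊗[ℚ] R, b ≠ 0 ∧
      x = algebraMap (QQbar ⊗[ℚ] R) (FractionRing (QQbar ⊗[ℚ] R)) a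
        / algebraMap (QQbar ⊗[ℚ] R) (FractionRing (QQbar ⊗[ℚ] R)) b := by
  obtain ⟨a, b, hb, h⟩ := IsFractionRing.div_surjective (A := QQbar ⊗[ℚ] R) x
  exact ⟨a, b, nonZeroDivisors.ne_zero hb, h.symm⟩

lemma infVal_frac (a b : QQbar ⊗[ℚ] R) (ha : a ≠ 0) (hb : b ≠ 0) :
    infVal hB (algebraMap (QQbar ⊗[ℚ] R) (FractionRing (QQbar ⊗[ℚ] R)) a
        / algebraMap (QQbar ⊗[ℚ] R) (FractionRing (QQbar ⊗[ℚ] R)) b)
      = WithZero.exp (((poleB 𝒞 a : ℕ) : ℤ) - ((poleB 𝒞 b : ℕ) : ℤ)) := by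
  rw [map_div₀, infVal_algebraMap_of_ne hB a ha, infVal_algebraMap_of_ne hB b hb,
    WithZero.exp_sub]

/-- the valuation takes integer values -/
lemma infVal_exists_exp (x : FractionRing (QQbar ⊗[ℚ] R)) (hx : x ≠ 0) :
    ∃ n : ℤ, infVal hB x = WithZero.exp n := by
  obtain ⟨a, b, hb, rfl⟩ := infExists_frac x
  have ha : a ≠ 0 := by
    rintro rfl
    simp at hx
  exact ⟨_, infVal_frac hB a b ha hb⟩


lemma infAlgebraMap_ne_zero (c : QQbar) (hc : c ≠ 0) :
    algebraMap QQbar (QQbar ⊗[ℚ] R) c ≠ 0 := by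
  intro h
  apply hc
  apply (algebraMap QQbar (QQbar ⊗[ℚ] R)).injective
  rw [h, map_zero]

lemma infVal_const (c : QQbar) (hc : c ≠ 0) :
    infVal hB (algebraMap QQbar (FractionRing (QQbar ⊗[ℚ] R)) c) = 1 := by
  rw [IsScalarTower.algebraMap_apply QQbar (QQbar ⊗[ℚ] R) (FractionRing (QQbar ⊗[ℚ] R)),
    infVal_algebraMap_of_ne hB _ (infAlgebraMap_ne_zero c hc), infPoleB_algebraMap hB]
  simp

lemma infVal_const_le (c : QQbar) :
    infVal hB (algebraMap QQbar (FractionRing (QQbar ⊗[ℚ] R)) c) ≤ 1 := by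
  by_cases hc : c = 0
  · simp [hc]
  · exact (infVal_const hB c hc).le

/-! ### The ring of functions regular at `∞` -/

/-- the ring of functions regular at `∞`: the valuation ring of the pole order, as a
`ℚ̄`-subalgebra of the fraction field of `ℚ̄ ⊗ R` -/
def OInf : Subalgebra QQbar (FractionRing (QQbar ⊗[ℚ] R)) where
  carrier := {x | infVal hB x ≤ 1}
  mul_mem' := fun {x y} hx hy => by
    show infVal hB (x * y) ≤ 1
    rw [map_mul]
    exact mul_le_one' hx hy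
  one_mem' := by
    show infVal hB 1 ≤ 1
    rw [map_one]
  add_mem' := fun {x y} hx hy => by
    show infVal hB (x + y) ≤ 1
    exact le_trans ((infVal hB).map_add x y) (max_le hx hy)
  zero_mem' := by
    show infVal hB 0 ≤ 1
    rw [map_zero]
    exact zero_le_one
  algebraMap_mem' := fun c => infVal_const_le hB c

lemma infMem_OInf (x : FractionRing (QQbar ⊗[ℚ] R)) : x ∈ OInf hB ↔ infVal hB x ≤ 1 := Iff.rfl

lemma infVal_coe_le (x : OInf hB) : infVal hB (x : FractionRing (QQbar ⊗[ℚ] R)) ≤ 1 := x.2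

lemma infO_dvd_iff (x y : OInf hB) :
    x ∣ y ↔ infVal hB (y : FractionRing (QQbar ⊗[ℚ] R))
      ≤ infVal hB (x : FractionRing (QQbar ⊗[ℚ] R)) := by
  constructor
  · rintro ⟨z, rfl⟩
    rw [Subalgebra.coe_mul, map_mul]
    exact mul_le_of_le_one_right' (infVal_coe_le hB z)
  · intro h
    by_cases hx : (x : FractionRing (QQbar ⊗[ℚ] R)) = 0
    · rw [hx, map_zero] at h
      have hy : (y : FractionRing (QQbar ⊗[ℚ] R)) = 0 := by
        rw [← Valuation.zero_iff (infVal hB)]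
        exact le_antisymm h zero_le
      have : y = 0 := Subtype.ext hy
      rw [this]
      exact dvd_zero x
    · have hvx : infVal hB (x : FractionRing (QQbar ⊗[ℚ] R)) ≠ 0 := by
        rwa [Ne, Valuation.zero_iff]
      refine ⟨⟨(y : FractionRing (QQbar ⊗[ℚ] R)) / x, ?_⟩, ?_⟩
      · show infVal hB _ ≤ 1
        rw [map_div₀]
        exact (div_le_one₀ (zero_lt_iff.2 hvx)).2 h
      · apply Subtype.ext
        rw [Subalgebra.coe_mul]
        show (y : FractionRing (QQbar ⊗[ℚ] R)) = x * (y / x)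
        field_simp

lemma infO_isUnit_iff (x : OInf hB) :
    IsUnit x ↔ infVal hB (x : FractionRing (QQbar ⊗[ℚ] R)) = 1 := by
  rw [isUnit_iff_dvd_one, infO_dvd_iff, Subalgebra.coe_one, map_one]
  exact ⟨fun h => le_antisymm (infVal_coe_le hB x) h, fun h => h.ge⟩

lemma infO_not_isUnit_iff (x : OInf hB) :
    ¬ IsUnit x ↔ infVal hB (x : FractionRing (QQbar ⊗[ℚ] R)) < 1 := by
  rw [infO_isUnit_iff, lt_iff_le_and_ne]
  exact ⟨fun h => ⟨infVal_coe_le hB x, h⟩, fun h => h.2⟩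

/-! ### The uniformizer -/

/-- an element of pole order `m₀ + 1` -/
def infB1 : QQbar ⊗[ℚ] R := Classical.choose (infExists_poleB_eq hB (𝒞.m₀ + 1) le_rfl)

/-- an element of pole order `m₀ + 2` -/
def infB2 : QQbar ⊗[ℚ] R :=
  Classical.choose (infExists_poleB_eq hB (𝒞.m₀ + 2) (Nat.le_succ _))

lemma infB1_ne : infB1 hB ≠ 0 :=
  (Classical.choose_spec (infExists_poleB_eq hB (𝒞.m₀ + 1) le_rfl)).1

lemma infB1_pole : poleB 𝒞 (infB1 hB) = 𝒞.m₀ + 1 :=
  (Classical.choose_spec (infExists_poleB_eq hB (𝒞.m₀ + 1) le_rfl)).2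

lemma infB2_ne : infB2 hB ≠ 0 :=
  (Classical.choose_spec (infExists_poleB_eq hB (𝒞.m₀ + 2) (Nat.le_succ _))).1

lemma infB2_pole : poleB 𝒞 (infB2 hB) = 𝒞.m₀ + 2 :=
  (Classical.choose_spec (infExists_poleB_eq hB (𝒞.m₀ + 2) (Nat.le_succ _))).2

/-- the uniformizer at `∞`, as an element of the fraction field -/
def infUF : FractionRing (QQbar ⊗[ℚ] R) :=
  algebraMap (QQbar ⊗[ℚ] R) (FractionRing (QQbar ⊗[ℚ] R)) (infB1 hB)
    / algebraMap (QQbar ⊗[ℚ] R) (FractionRing (QQbar ⊗[ℚ] R)) (infB2 hB)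

lemma infVal_infUF : infVal hB (infUF hB) = WithZero.exp (-1 : ℤ) := by
  unfold infUF
  rw [infVal_frac hB _ _ (infB1_ne hB) (infB2_ne hB), infB1_pole, infB2_pole]
  congr 1
  push_cast
  ring

lemma infVal_infUF_pow (n : ℕ) : infVal hB (infUF hB ^ n) = WithZero.exp (-(n : ℤ)) := by
  rw [map_pow, infVal_infUF, ← WithZero.exp_nsmul]
  congr 1
  simp

lemma infUF_ne_zero : infUF hB ≠ 0 := by
  intro h
  have := infVal_infUF hB
  rw [h, map_zero] at this
  exact WithZero.exp_ne_zero this.symm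

/-- the uniformizer at `∞` -/
def infU : OInf hB := ⟨infUF hB, by
  show infVal hB (infUF hB) ≤ 1
  rw [infVal_infUF, ← WithZero.exp_zero, WithZero.exp_le_exp]
  omega⟩

lemma infU_coe : ((infU hB : OInf hB) : FractionRing (QQbar ⊗[ℚ] R)) = infUF hB := rfl

lemma infU_pow_coe (n : ℕ) :
    ((infU hB ^ n : OInf hB) : FractionRing (QQbar ⊗[ℚ] R)) = infUF hB ^ n := by
  rw [Subalgebra.coe_pow, infU_coe]

lemma infO_mem_span_pow (x : OInf hB) (n : ℕ) :
    x ∈ Ideal.span {infU hB ^ n} ↔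
      infVal hB (x : FractionRing (QQbar ⊗[ℚ] R)) ≤ WithZero.exp (-(n : ℤ)) := by
  rw [Ideal.mem_span_singleton, infO_dvd_iff, infU_pow_coe, infVal_infUF_pow]

lemma infO_val_lt_one_iff (x : FractionRing (QQbar ⊗[ℚ] R)) :
    infVal hB x < 1 ↔ infVal hB x ≤ WithZero.exp (-1 : ℤ) := by
  by_cases hx : x = 0
  · simp [hx]
  obtain ⟨n, hn⟩ := infVal_exists_exp hB x hx
  rw [hn, ← WithZero.exp_zero, WithZero.exp_lt_exp, WithZero.exp_le_exp]
  omega

lemma infU_irreducible : Irreducible (infU hB) := by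
  rw [irreducible_iff]
  constructor
  · rw [infO_not_isUnit_iff, infU_coe, infVal_infUF, ← WithZero.exp_zero, WithZero.exp_lt_exp]
    omega
  · intro a b hab
    have h1 : infVal hB (a : FractionRing (QQbar ⊗[ℚ] R))
        * infVal hB (b : FractionRing (QQbar ⊗[ℚ] R)) = WithZero.exp (-1 : ℤ) := by
      rw [← map_mul, ← Subalgebra.coe_mul, ← hab, infU_coe, infVal_infUF]
    have ha0 : (a : FractionRing (QQbar ⊗[ℚ] R)) ≠ 0 := by
      intro h
      rw [h, map_zero, zero_mul] at h1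
      exact WithZero.exp_ne_zero h1.symm
    have hb0 : (b : FractionRing (QQbar ⊗[ℚ] R)) ≠ 0 := by
      intro h
      rw [h, map_zero, mul_zero] at h1
      exact WithZero.exp_ne_zero h1.symm
    obtain ⟨i, hi⟩ := infVal_exists_exp hB _ ha0
    obtain ⟨j, hj⟩ := infVal_exists_exp hB _ hb0
    have hi1 := infVal_coe_le hB a
    have hj1 := infVal_coe_le hB b
    rw [hi, ← WithZero.exp_zero, WithZero.exp_le_exp] at hi1
    rw [hj, ← WithZero.exp_zero, WithZero.exp_le_exp] at hj1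
    rw [hi, hj, ← WithZero.exp_add, WithZero.exp_inj] at h1
    rw [infO_isUnit_iff, infO_isUnit_iff, hi, hj, WithZero.exp_eq_one, WithZero.exp_eq_one]
    omega

lemma infO_factorization :
    IsDiscreteValuationRing.HasUnitMulPowIrreducibleFactorization (OInf hB) := by
  refine ⟨infU hB, infU_irreducible hB, ?_⟩
  intro x hx
  have hx0 : (x : FractionRing (QQbar ⊗[ℚ] R)) ≠ 0 := fun h => hx (Subtype.ext h)
  obtain ⟨i, hi⟩ := infVal_exists_exp hB _ hx0
  have hi1 := infVal_coe_le hB x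
  rw [hi, ← WithZero.exp_zero, WithZero.exp_le_exp] at hi1
  refine ⟨i.natAbs, ?_⟩
  have hv : infVal hB ((infU hB ^ i.natAbs : OInf hB) : FractionRing (QQbar ⊗[ℚ] R))
      = infVal hB (x : FractionRing (QQbar ⊗[ℚ] R)) := by
    rw [infU_pow_coe, infVal_infUF_pow, hi]
    congr 1
    omega
  apply associated_of_dvd_dvd
  · rw [infO_dvd_iff]; exact hv.ge
  · rw [infO_dvd_iff]; exact hv.le

instance infO_dvr : IsDiscreteValuationRing (OInf hB) :=
  IsDiscreteValuationRing.ofHasUnitMulPowIrreducibleFactorization (infO_factorization hB)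

lemma infO_mem_maximalIdeal (x : OInf hB) :
    x ∈ IsLocalRing.maximalIdeal (OInf hB)
      ↔ infVal hB (x : FractionRing (QQbar ⊗[ℚ] R)) < 1 := by
  rw [IsLocalRing.mem_maximalIdeal, mem_nonunits_iff, infO_not_isUnit_iff]


lemma infO_coe_algebraMap (c : QQbar) :
    ((algebraMap QQbar (OInf hB) c : OInf hB) : FractionRing (QQbar ⊗[ℚ] R))
      = algebraMap (QQbar ⊗[ℚ] R) (FractionRing (QQbar ⊗[ℚ] R))
          (algebraMap QQbar (QQbar ⊗[ℚ] R) c) := by
  rw [Subalgebra.coe_algebraMap,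
    IsScalarTower.algebraMap_apply QQbar (QQbar ⊗[ℚ] R) (FractionRing (QQbar ⊗[ℚ] R))]

/-- the residue field of `OInf` is `ℚ̄` -/
lemma infO_res (h : OInf hB) : ∃ c : QQbar,
    h - algebraMap QQbar (OInf hB) c ∈ IsLocalRing.maximalIdeal (OInf hB) := by
  by_cases hv : infVal hB (h : FractionRing (QQbar ⊗[ℚ] R)) < 1
  · refine ⟨0, ?_⟩
    rw [map_zero, sub_zero, infO_mem_maximalIdeal]
    exact hv
  · have hv1 : infVal hB (h : FractionRing (QQbar ⊗[ℚ] R)) = 1 :=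
      le_antisymm (infVal_coe_le hB h) (not_lt.1 hv)
    obtain ⟨a, b, hb, hab⟩ := infExists_frac (h : FractionRing (QQbar ⊗[ℚ] R))
    have ha : a ≠ 0 := by
      rintro rfl
      rw [hab] at hv1
      simp at hv1
    have hpole : poleB 𝒞 a = poleB 𝒞 b := by
      rw [hab, infVal_frac hB a b ha hb, WithZero.exp_eq_one] at hv1
      omega
    have hbF : algebraMap (QQbar ⊗[ℚ] R) (FractionRing (QQbar ⊗[ℚ] R)) b ≠ 0 := by
      intro h0
      exact hb (IsFractionRing.injective (QQbar ⊗[ℚ] R) (FractionRing (QQbar ⊗[ℚ] R))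
        (h0.trans (map_zero _).symm))
    by_cases hpos : 0 < poleB 𝒞 b
    · obtain ⟨c, hc⟩ := infStep hB a b hpole hpos
      refine ⟨c, ?_⟩
      rw [infO_mem_maximalIdeal]
      have hcoe : ((h - algebraMap QQbar (OInf hB) c : OInf hB) :
          FractionRing (QQbar ⊗[ℚ] R))
          = algebraMap (QQbar ⊗[ℚ] R) (FractionRing (QQbar ⊗[ℚ] R)) (a - c • b)
            / algebraMap (QQbar ⊗[ℚ] R) (FractionRing (QQbar ⊗[ℚ] R)) b := by
        rw [Subalgebra.coe_sub, infO_coe_algebraMap, hab, map_sub, Algebra.smul_def, map_mul]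
        field_simp
      rw [hcoe]
      by_cases h0 : a - c • b = 0
      · rw [h0, map_zero, zero_div, map_zero]
        exact zero_lt_one
      · rw [infVal_frac hB _ _ h0 hb, ← WithZero.exp_zero, WithZero.exp_lt_exp]
        omega
    · have hb0 : poleB 𝒞 b = 0 := by omega
      obtain ⟨ca, hca⟩ := hB.eq_const a ((infPoleB_le_iff hB _ _).1 (by omega))
      obtain ⟨cb, hcb⟩ := hB.eq_const b ((infPoleB_le_iff hB _ _).1 (by omega))
      have hcb0 : cb ≠ 0 := by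
        rintro rfl
        rw [map_zero] at hcb
        exact hb hcb
      refine ⟨ca / cb, ?_⟩
      have : h - algebraMap QQbar (OInf hB) (ca / cb) = 0 := by
        apply Subtype.ext
        rw [Subalgebra.coe_sub, Subalgebra.coe_algebraMap, hab, hca, hcb, Subalgebra.coe_zero,
          ← IsScalarTower.algebraMap_apply QQbar (QQbar ⊗[ℚ] R) (FractionRing (QQbar ⊗[ℚ] R)),
          ← IsScalarTower.algebraMap_apply QQbar (QQbar ⊗[ℚ] R) (FractionRing (QQbar ⊗[ℚ] R)),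
          map_div₀, sub_self]
      rw [this]
      exact Submodule.zero_mem _

end val

end Fermat.Agent.H89.MW

end
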