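/-
P-MW (S17), BLOCK C, row 849 [LPF-G-INF], part 2: the germ maps at `∞`
(`germ m f = f * u ^ m`), their kernels modulo `u ^ n` and their surjectivity.
-/
import Fermat.Agent.H89.MW.InfVal

set_option autoImplicit false
set_option linter.unusedSectionVars false

noncomputable section

open Module TensorProduct

namespace Fermat.Agent.H89.MW

open Fermat.Agent.H92.MW

variable {R : Type} [CommRing R] [Algebra ℚ R] [IsDedekindDomain R]

variable {𝒞 : MWDatum R} (hB : BarFacts 𝒞) [IsDomain (QQbar ⊗[ℚ] R)]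

lemma infVal_mul_pow (a : QQbar ⊗[ℚ] R) (ha : a ≠ 0) (m : ℕ) :
    infVal hB (algebraMap (QQbar ⊗[ℚ] R) (FractionRing (QQbar ⊗[ℚ] R)) a * infUF hB ^ m)
      = WithZero.exp (((poleB 𝒞 a : ℕ) : ℤ) - (m : ℤ)) := by
  rw [map_mul, infVal_algebraMap_of_ne hB a ha, infVal_infUF_pow, ← WithZero.exp_add]
  congr 1

lemma infVal_mul_pow_le (a : QQbar ⊗[ℚ] R) (m : ℕ) (ha : a ∈ WBar 𝒞 m) :
    infVal hB (algebraMap (QQbar ⊗[ℚ] R) (FractionRing (QQbar ⊗[ℚ] R)) a * infUF hB ^ m)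
      ≤ 1 := by
  by_cases h0 : a = 0
  · rw [h0, map_zero, zero_mul, map_zero]
    exact zero_le_one
  · rw [infVal_mul_pow hB a h0, ← WithZero.exp_zero, WithZero.exp_le_exp]
    have := (infPoleB_le_iff hB a m).2 ha
    omega

/-- the germ at `∞` of an element of `WBar m`, normalised at level `m`: `f ↦ f * u ^ m` -/
def infGerm (m : ℕ) : WBar 𝒞 m →ₗ[QQbar] OInf hB where
  toFun f := ⟨algebraMap (QQbar ⊗[ℚ] R) (FractionRing (QQbar ⊗[ℚ] R)) (f : QQbar ⊗[ℚ] R)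
    * infUF hB ^ m, infVal_mul_pow_le hB _ m f.2⟩
  map_add' f g := by
    apply Subtype.ext
    rw [Subalgebra.coe_add]
    show algebraMap (QQbar ⊗[ℚ] R) (FractionRing (QQbar ⊗[ℚ] R))
        ((f : QQbar ⊗[ℚ] R) + (g : QQbar ⊗[ℚ] R)) * infUF hB ^ m = _
    rw [map_add, add_mul]
  map_smul' c f := by
    apply Subtype.ext
    rw [RingHom.id_apply, Subalgebra.coe_smul]
    show algebraMap (QQbar ⊗[ℚ] R) (FractionRing (QQbar ⊗[ℚ] R))
        (c • (f : QQbar ⊗[ℚ] R)) * infUF hB ^ m = c • (_ * _)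
    rw [Algebra.smul_def, map_mul, Algebra.smul_def,
      IsScalarTower.algebraMap_apply QQbar (QQbar ⊗[ℚ] R) (FractionRing (QQbar ⊗[ℚ] R)),
      mul_assoc]

lemma infGerm_coe (m : ℕ) (f : WBar 𝒞 m) :
    ((infGerm hB m f : OInf hB) : FractionRing (QQbar ⊗[ℚ] R))
      = algebraMap (QQbar ⊗[ℚ] R) (FractionRing (QQbar ⊗[ℚ] R)) (f : QQbar ⊗[ℚ] R)
        * infUF hB ^ m := rfl

lemma infGerm_mem (m n : ℕ) (f : WBar 𝒞 m) (hnm : n ≤ m) :
    infGerm hB m f ∈ Ideal.span {infU hB ^ n} ↔ (f : QQbar ⊗[ℚ] R) ∈ WBar 𝒞 (m - n) := by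
  rw [infO_mem_span_pow, infGerm_coe, ← infPoleB_le_iff hB]
  by_cases h0 : (f : QQbar ⊗[ℚ] R) = 0
  · rw [h0, map_zero, zero_mul, map_zero, infPoleB_zero hB]
    exact ⟨fun _ => Nat.zero_le _, fun _ => zero_le⟩
  · rw [infVal_mul_pow hB _ h0, WithZero.exp_le_exp]
    omega

/-- one step of the approximation -/
lemma infGerm_approx (m n : ℕ) (hnm : n + 𝒞.m₀ + 1 ≤ m) (x : OInf hB)
    (hx : infVal hB (x : FractionRing (QQbar ⊗[ℚ] R)) ≤ WithZero.exp (-(n : ℤ))) :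
    ∃ f : WBar 𝒞 m,
      infVal hB ((infGerm hB m f - x : OInf hB) : FractionRing (QQbar ⊗[ℚ] R))
        ≤ WithZero.exp (-((n + 1 : ℕ) : ℤ)) := by
  obtain ⟨b, hb0, hbp⟩ := infExists_poleB_eq hB (m - n) (by omega)
  have hbm : b ∈ WBar 𝒞 m := (infPoleB_le_iff hB b m).1 (by omega)
  set g : FractionRing (QQbar ⊗[ℚ] R) :=
    algebraMap (QQbar ⊗[ℚ] R) (FractionRing (QQbar ⊗[ℚ] R)) b * infUF hB ^ m with hg
  have hvg : infVal hB g = WithZero.exp (-(n : ℤ)) := by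
    rw [hg, infVal_mul_pow hB b hb0, hbp]
    congr 1
    omega
  have hg0 : g ≠ 0 := by
    intro h
    rw [h, map_zero] at hvg
    exact WithZero.exp_ne_zero hvg.symm
  have hvg0 : infVal hB g ≠ 0 := by rwa [Ne, Valuation.zero_iff]
  have hz : infVal hB ((x : FractionRing (QQbar ⊗[ℚ] R)) / g) ≤ 1 := by
    rw [map_div₀, hvg]
    exact (div_le_one₀ (zero_lt_iff.2 WithZero.exp_ne_zero)).2 hx
  obtain ⟨c, hc⟩ := infO_res hB ⟨(x : FractionRing (QQbar ⊗[ℚ] R)) / g, hz⟩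
  rw [infO_mem_maximalIdeal, infO_val_lt_one_iff, Subalgebra.coe_sub,
    Subalgebra.coe_algebraMap] at hc
  refine ⟨c • ⟨b, hbm⟩, ?_⟩
  have hcoe : ((infGerm hB m (c • (⟨b, hbm⟩ : WBar 𝒞 m)) - x : OInf hB) :
      FractionRing (QQbar ⊗[ℚ] R))
      = -(((x : FractionRing (QQbar ⊗[ℚ] R)) / g
          - algebraMap QQbar (FractionRing (QQbar ⊗[ℚ] R)) c) * g) := by
    rw [map_smul, Subalgebra.coe_sub, Subalgebra.coe_smul, infGerm_coe, Algebra.smul_def]
    show algebraMap QQbar (FractionRing (QQbar ⊗[ℚ] R)) c * g - x = _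
    field_simp
    ring
  rw [hcoe, Valuation.map_neg, map_mul, hvg]
  calc infVal hB ((x : FractionRing (QQbar ⊗[ℚ] R)) / g
          - algebraMap QQbar (FractionRing (QQbar ⊗[ℚ] R)) c) * WithZero.exp (-(n : ℤ))
      ≤ WithZero.exp (-1 : ℤ) * WithZero.exp (-(n : ℤ)) := mul_le_mul_left hc _
    _ = WithZero.exp (-((n + 1 : ℕ) : ℤ)) := by
        rw [← WithZero.exp_add]
        congr 1
        push_cast
        ring

lemma infGerm_surj (m n : ℕ) (hnm : n + 𝒞.m₀ ≤ m) (h : OInf hB) :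
    ∃ f : WBar 𝒞 m, infGerm hB m f - h ∈ Ideal.span {infU hB ^ n} := by
  induction n with
  | zero =>
    refine ⟨0, ?_⟩
    rw [pow_zero, Ideal.span_singleton_one]
    exact Submodule.mem_top
  | succ n ih =>
    obtain ⟨f₀, hf₀⟩ := ih (by omega)
    rw [infO_mem_span_pow] at hf₀
    have hx : infVal hB ((h - infGerm hB m f₀ : OInf hB) : FractionRing (QQbar ⊗[ℚ] R))
        ≤ WithZero.exp (-(n : ℤ)) := by
      have : (h - infGerm hB m f₀ : OInf hB) = -(infGerm hB m f₀ - h) := by ring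
      rw [this, Subalgebra.coe_neg, Valuation.map_neg]
      exact hf₀
    obtain ⟨f₁, hf₁⟩ := infGerm_approx hB m n (by omega) _ hx
    refine ⟨f₀ + f₁, ?_⟩
    rw [infO_mem_span_pow]
    have : infGerm hB m (f₀ + f₁) - h = infGerm hB m f₁ - (h - infGerm hB m f₀) := by
      rw [map_add]
      ring
    rw [this]
    exact hf₁

end Fermat.Agent.H89.MW

end
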