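/-
P-MW (S17), BLOCK C, row 849 [LPF-G-INF], part 4: points with a value outside `V` have centre `∞`.
-/
import Fermat.Agent.H89.MW.InfGerm

set_option autoImplicit false
set_option linter.unusedSectionVars false

noncomputable section

open Module TensorProduct

namespace Fermat.Agent.H89.MW

open Fermat.Agent.H92.MW

variable {R : Type} [CommRing R] [Algebra ℚ R] [IsDedekindDomain R]

variable {𝒞 : MWDatum R} (hB : BarFacts 𝒞)

/-- the elements of `ℚ̄` are algebraic over `ℚ` (for the default `ℚ`-algebra structure) -/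
lemma infIsAlgebraic (c : QQbar) : IsAlgebraic ℚ c := by
  have h : @IsAlgebraic ℚ QQbar _ _ (AlgebraicClosure.instAlgebra ℚ) c :=
    (AlgebraicClosure.isAlgebraic ℚ).isAlgebraic c
  convert h
  exact Subsingleton.elim _ _

section phi

variable {𝒦 : Type} [Field 𝒦] [Algebra ℚ 𝒦] (ι : QQbar →ₐ[ℚ] 𝒦) (P : R →ₐ[ℚ] 𝒦)

/-- the point of `ℚ̄ ⊗ R` defined by an embedding of `ℚ̄` and a point of `R` -/
def infPhi : (QQbar ⊗[ℚ] R) →+* 𝒦 :=
  (Algebra.TensorProduct.lift ι P (fun _ _ => Commute.all _ _)).toRingHom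

lemma infPhi_tmul (c : QQbar) (r : R) : infPhi ι P (c ⊗ₜ[ℚ] r) = ι c * P r := by
  show (Algebra.TensorProduct.lift ι P (fun _ _ => Commute.all _ _)) (c ⊗ₜ[ℚ] r) = _
  rw [Algebra.TensorProduct.lift_tmul]

lemma infPhi_const (c : QQbar) :
    infPhi ι P (algebraMap QQbar (QQbar ⊗[ℚ] R) c) = ι c := by
  rw [Algebra.TensorProduct.algebraMap_apply, infPhi_tmul, map_one, mul_one]
  rfl

lemma infPhi_one_tmul (r : R) : infPhi ι P ((1 : QQbar) ⊗ₜ[ℚ] r) = P r := by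
  rw [infPhi_tmul, map_one, one_mul]

end phi

section centre

variable [IsDomain (QQbar ⊗[ℚ] R)]

include hB

/-- **Points with a value outside `V` have centre `∞`.** -/
theorem infCentre (hN : NormInfStatement 𝒞)
    (𝒦 : Type) [Field 𝒦] [Algebra ℚ 𝒦] (V : ValuationSubring 𝒦)
    (hV : IsQbarValRing V) (ι : QQbar →ₐ[ℚ] 𝒦) (P : R →ₐ[ℚ] 𝒦) (hP : ∃ r : R, P r ∉ V) :
    ∃ loc : OInf hB →+* 𝒦,
      (∀ h, loc h ∈ V) ∧ (∀ a : QQbar, loc (algebraMap QQbar (OInf hB) a) = ι a) ∧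
      V.valuation (loc (infU hB)) < 1 ∧
      V.valuation (loc (infU hB)) ^ 𝒞.e * max 1 (V.valuation (P 𝒞.t)) = 1 ∧
      ∀ (m : ℕ) (f : 𝒞.W m),
        loc (infGerm hB m (toWBar 𝒞 m f)) = P (f : R) * loc (infU hB) ^ m := by
  have he := 𝒞.e_pos
  -- the dichotomy
  have hconst : ∀ c : QQbar, infPhi ι P (algebraMap QQbar (QQbar ⊗[ℚ] R) c) ∈ V := by
    intro c
    rw [infPhi_const]
    exact hV.1 _ (IsAlgebraic.algHom ι (infIsAlgebraic c))
  obtain ⟨r, hr⟩ := hP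
  have hdich := hN 𝒦 V (infPhi ι P) hconst
  have hnot : ¬ ∀ a, infPhi ι P a ∈ V := fun h => hr (by
    have := h ((1 : QQbar) ⊗ₜ[ℚ] r)
    rwa [infPhi_one_tmul] at this)
  obtain ⟨hτ, hpow⟩ := hdich.resolve_left hnot
  set τ := V.valuation (infPhi ι P (tBar 𝒞)) with hτdef
  have hτ0 : τ ≠ 0 := ne_of_gt (lt_trans zero_lt_one hτ)
  have hτP : V.valuation (P 𝒞.t) = τ := by
    rw [hτdef]
    unfold tBar
    rw [infPhi_one_tmul]
  -- injectivity
  have hne : ∀ a : QQbar ⊗[ℚ] R, a ≠ 0 → infPhi ι P a ≠ 0 := by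
    intro a ha h0
    have := hpow a ha
    rw [h0, map_zero, zero_pow (Nat.pos_iff_ne_zero.1 he)] at this
    exact pow_ne_zero _ hτ0 this.symm
  have hinj : Function.Injective (infPhi ι P : (QQbar ⊗[ℚ] R) →+* 𝒦) := by
    rw [injective_iff_map_eq_zero]
    intro a ha
    by_contra h
    exact hne a h ha
  -- the extension to the fraction field
  set loc₀ : FractionRing (QQbar ⊗[ℚ] R) →+* 𝒦 := IsFractionRing.lift hinj with hloc₀
  have hloc₀_alg : ∀ a : QQbar ⊗[ℚ] R,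
      loc₀ (algebraMap (QQbar ⊗[ℚ] R) (FractionRing (QQbar ⊗[ℚ] R)) a) = infPhi ι P a :=
    fun a => IsFractionRing.lift_algebraMap hinj a
  have hfrac : ∀ a b : QQbar ⊗[ℚ] R, a ≠ 0 → b ≠ 0 →
      V.valuation (loc₀ (algebraMap (QQbar ⊗[ℚ] R) (FractionRing (QQbar ⊗[ℚ] R)) a
        / algebraMap (QQbar ⊗[ℚ] R) (FractionRing (QQbar ⊗[ℚ] R)) b)) ^ 𝒞.e
        = τ ^ poleB 𝒞 a / τ ^ poleB 𝒞 b := by
    intro a b ha hb
    rw [map_div₀, hloc₀_alg, hloc₀_alg, map_div₀, div_pow, hpow a ha, hpow b hb]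
  have hle_of_pow : ∀ x : V.ValueGroup, x ^ 𝒞.e ≤ 1 → x ≤ 1 := by
    intro x hx
    by_contra h
    have h1 : 1 < x := not_le.1 h
    exact absurd hx (not_le.2 (one_lt_pow₀ h1 (Nat.pos_iff_ne_zero.1 he)))
  have hlt_of_pow : ∀ x : V.ValueGroup, x ^ 𝒞.e < 1 → x < 1 := by
    intro x hx
    by_contra h
    have h1 : 1 ≤ x := not_lt.1 h
    exact absurd hx (not_lt.2 (one_le_pow₀ h1))
  have hu : V.valuation (loc₀ (infUF hB)) ^ 𝒞.e = τ⁻¹ := by
    unfold infUF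
    rw [hfrac _ _ (infB1_ne hB) (infB2_ne hB), infB1_pole, infB2_pole, pow_succ τ (𝒞.m₀ + 1),
      ← div_div, div_self (pow_ne_zero _ hτ0), one_div]
  have hτinv : τ⁻¹ < 1 := inv_lt_one_of_one_lt₀ hτ
  refine ⟨loc₀.comp (OInf hB).val.toRingHom, ?_, ?_, ?_, ?_, ?_⟩
  · intro h
    show loc₀ (h : FractionRing (QQbar ⊗[ℚ] R)) ∈ V
    rw [← ValuationSubring.valuation_le_one_iff]
    obtain ⟨a, b, hb, hab⟩ := infExists_frac (h : FractionRing (QQbar ⊗[ℚ] R))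
    by_cases ha : a = 0
    · rw [hab, ha, map_zero, zero_div, map_zero, map_zero]
      exact zero_le_one
    have hle : poleB 𝒞 a ≤ poleB 𝒞 b := by
      have := infVal_coe_le hB h
      rw [hab, infVal_frac hB a b ha hb, ← WithZero.exp_zero, WithZero.exp_le_exp] at this
      omega
    apply hle_of_pow
    rw [hab, hfrac a b ha hb]
    rw [div_le_one₀ (pow_pos (lt_trans zero_lt_one hτ) _)]
    exact pow_le_pow_right₀ hτ.le hle
  · intro a
    show loc₀ ((algebraMap QQbar (OInf hB) a : OInf hB) : FractionRing (QQbar ⊗[ℚ] R)) = ι a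
    rw [infO_coe_algebraMap, hloc₀_alg, infPhi_const]
  · show V.valuation (loc₀ (infUF hB)) < 1
    apply hlt_of_pow
    rw [hu]
    exact hτinv
  · show V.valuation (loc₀ (infUF hB)) ^ 𝒞.e * max 1 (V.valuation (P 𝒞.t)) = 1
    rw [hu, hτP, max_eq_right hτ.le, inv_mul_cancel₀ hτ0]
  · intro m f
    show loc₀ ((infGerm hB m (toWBar 𝒞 m f) : OInf hB) : FractionRing (QQbar ⊗[ℚ] R))
      = P (f : R) * loc₀ (infUF hB) ^ m
    rw [infGerm_coe, toWBar_coe, map_mul, map_pow, hloc₀_alg, infPhi_one_tmul]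

end centre

end Fermat.Agent.H89.MW

end
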