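/-
P-MW (S17), BLOCK C, row 849 [LPF-G-INF], part 3: `OInf` is essentially of finite type over `ℚ̄`.
The functions `a / t ^ j`, `a ∈ WBar (j e)`, form a finitely generated `ℚ̄`-algebra `B∞`
(generated by `1 / t` and the `a / t ^ j₀`, `a ∈ WBar (j₀ e)`, `j₀ = m₀ + 2`) and every element
of `OInf` is a quotient of two elements of `B∞` with unit denominator.
-/
import Fermat.Agent.H89.MW.InfVal

set_option autoImplicit false
set_option linter.unusedSectionVars false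

noncomputable section

open Module TensorProduct

namespace Fermat.Agent.H89.MW

open Fermat.Agent.H92.MW

variable {R : Type} [CommRing R] [Algebra ℚ R] [IsDedekindDomain R]

variable {𝒞 : MWDatum R} (hB : BarFacts 𝒞)

/-! ### Division by `t` in the filtration -/

section descent

include hB

lemma infPoleB_t_mul [IsDomain (QQbar ⊗[ℚ] R)] (b : QQbar ⊗[ℚ] R) (hb : b ≠ 0) :
    poleB 𝒞 (tBar 𝒞 * b) = 𝒞.e + poleB 𝒞 b := by
  rw [hB.pole_mul _ _ (infTBar_ne_zero hB) hb, infPoleB_tBar hB]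

lemma infPoleB_mul_le (a b : QQbar ⊗[ℚ] R) :
    poleB 𝒞 (a * b) ≤ poleB 𝒞 a + poleB 𝒞 b := by
  rw [infPoleB_le_iff hB]
  exact hB.mul_mem _ _ a b (infMem_poleB hB a) (infMem_poleB hB b)

lemma infPoleB_pow_le (a : QQbar ⊗[ℚ] R) (n : ℕ) :
    poleB 𝒞 (a ^ n) ≤ n * poleB 𝒞 a := by
  induction n with
  | zero => rw [pow_zero, infPoleB_one hB, Nat.zero_mul]
  | succ n ih =>
    rw [pow_succ]
    refine le_trans (infPoleB_mul_le hB _ _) ?_
    rw [Nat.succ_mul]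
    exact Nat.add_le_add_right ih _

/-- **Division with remainder by `t`** in the filtration: beyond `m₀`, every element of pole order
`≤ M + e + k` is `t * a' + a''` with `pole a' ≤ M + k`, `pole a'' ≤ M + e`. -/
lemma infDescent [IsDomain (QQbar ⊗[ℚ] R)] (M : ℕ) (hM : 𝒞.m₀ ≤ M) (k : ℕ)
    (a : QQbar ⊗[ℚ] R) (ha : poleB 𝒞 a ≤ M + 𝒞.e + k) :
    ∃ a' : QQbar ⊗[ℚ] R, poleB 𝒞 a' ≤ M + k ∧ poleB 𝒞 (a - tBar 𝒞 * a') ≤ M + 𝒞.e := by
  induction k generalizing a with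
  | zero =>
    refine ⟨0, ?_, ?_⟩
    · rw [infPoleB_zero hB]; exact Nat.zero_le _
    · rw [mul_zero, sub_zero]; exact ha
  | succ k ih =>
    by_cases hlt : poleB 𝒞 a ≤ M + 𝒞.e + k
    · obtain ⟨a', h1, h2⟩ := ih a hlt
      exact ⟨a', by omega, h2⟩
    · have hpa : poleB 𝒞 a = M + 𝒞.e + k + 1 := by omega
      obtain ⟨b, hb0, hbp⟩ := infExists_poleB_eq hB (M + k + 1) (by omega)
      have htb : poleB 𝒞 (tBar 𝒞 * b) = M + 𝒞.e + k + 1 := by
        rw [infPoleB_t_mul hB b hb0, hbp]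
        omega
      obtain ⟨c, hc⟩ := infStep hB a (tBar 𝒞 * b) (by rw [hpa, htb]) (by omega)
      obtain ⟨a'', h1, h2⟩ := ih (a - c • (tBar 𝒞 * b)) (by omega)
      refine ⟨c • b + a'', ?_, ?_⟩
      · refine le_trans (infPoleB_add_le hB _ _) (max_le ?_ (by omega))
        exact le_trans (infPoleB_smul_le hB c b) (by omega)
      · have : a - tBar 𝒞 * (c • b + a'') = a - c • (tBar 𝒞 * b) - tBar 𝒞 * a'' := by
          rw [mul_add, mul_smul_comm]
          ring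
        rw [this]
        exact h2

end descent

/-! ### The algebra `B∞` -/

section eft

variable [IsDomain (QQbar ⊗[ℚ] R)]

/-- `t` in the fraction field -/
def infTF : FractionRing (QQbar ⊗[ℚ] R) :=
  algebraMap (QQbar ⊗[ℚ] R) (FractionRing (QQbar ⊗[ℚ] R)) (tBar 𝒞)

omit [IsDomain (QQbar ⊗[ℚ] R)] in
lemma infTF_def : infTF (𝒞 := 𝒞)
    = algebraMap (QQbar ⊗[ℚ] R) (FractionRing (QQbar ⊗[ℚ] R)) (tBar 𝒞) := rfl

include hB

lemma infVal_infTF : infVal hB (infTF (𝒞 := 𝒞)) = WithZero.exp (𝒞.e : ℤ) := by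
  rw [infTF_def, infVal_algebraMap_of_ne hB _ (infTBar_ne_zero hB), infPoleB_tBar hB]

lemma infTF_ne_zero : infTF (𝒞 := 𝒞) ≠ 0 := by
  intro h
  have := infVal_infTF hB
  rw [h, map_zero] at this
  exact WithZero.exp_ne_zero this.symm

lemma infVal_div_t_pow (a : QQbar ⊗[ℚ] R) (ha : a ≠ 0) (j : ℕ) :
    infVal hB (algebraMap (QQbar ⊗[ℚ] R) (FractionRing (QQbar ⊗[ℚ] R)) a
        / infTF (𝒞 := 𝒞) ^ j)
      = WithZero.exp (((poleB 𝒞 a : ℕ) : ℤ) - ((j * 𝒞.e : ℕ) : ℤ)) := by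
  rw [map_div₀, map_pow, infVal_algebraMap_of_ne hB a ha, infVal_infTF, ← WithZero.exp_nsmul,
    ← WithZero.exp_sub]
  congr 1

lemma infVal_div_t_pow_le (a : QQbar ⊗[ℚ] R) (j : ℕ) (ha : poleB 𝒞 a ≤ j * 𝒞.e) :
    infVal hB (algebraMap (QQbar ⊗[ℚ] R) (FractionRing (QQbar ⊗[ℚ] R)) a
        / infTF (𝒞 := 𝒞) ^ j) ≤ 1 := by
  by_cases h0 : a = 0
  · rw [h0, map_zero, zero_div, map_zero]
    exact zero_le_one
  · rw [infVal_div_t_pow hB a h0, ← WithZero.exp_zero, WithZero.exp_le_exp]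
    omega

/-- the element `a / t ^ j` of `OInf`, for `pole a ≤ j e` -/
def infFracT (a : QQbar ⊗[ℚ] R) (j : ℕ) (ha : poleB 𝒞 a ≤ j * 𝒞.e) : OInf hB :=
  ⟨algebraMap (QQbar ⊗[ℚ] R) (FractionRing (QQbar ⊗[ℚ] R)) a / infTF (𝒞 := 𝒞) ^ j,
    infVal_div_t_pow_le hB a j ha⟩

lemma infFracT_coe (a : QQbar ⊗[ℚ] R) (j : ℕ) (ha : poleB 𝒞 a ≤ j * 𝒞.e) :
    ((infFracT hB a j ha : OInf hB) : FractionRing (QQbar ⊗[ℚ] R))
      = algebraMap (QQbar ⊗[ℚ] R) (FractionRing (QQbar ⊗[ℚ] R)) a / infTF (𝒞 := 𝒞) ^ j := rfl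

/-- the level from which on the algebra is generated -/
def infJ0 (𝒞 : MWDatum R) : ℕ := 𝒞.m₀ + 2

lemma infPoleB_basis (j : Fin (finrank ℚ (𝒞.W (infJ0 𝒞 * 𝒞.e)))) :
    poleB 𝒞 ((toWBar 𝒞 _ (Module.finBasis ℚ (𝒞.W (infJ0 𝒞 * 𝒞.e)) j) :
      WBar 𝒞 (infJ0 𝒞 * 𝒞.e)) : QQbar ⊗[ℚ] R) ≤ infJ0 𝒞 * 𝒞.e :=
  (infPoleB_le_iff hB _ _).2 (Subtype.property _)

open Classical in
/-- the generators of `B∞` -/
def infGens : Finset (OInf hB) :=
  insert (infFracT hB 1 1 (by rw [infPoleB_one hB]; exact Nat.zero_le _))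
    (Finset.univ.image fun j : Fin (finrank ℚ (𝒞.W (infJ0 𝒞 * 𝒞.e))) =>
      infFracT hB _ (infJ0 𝒞) (infPoleB_basis hB j))

open Classical in
/-- `1 / t ∈ B∞` -/
lemma infInvT_mem :
    infFracT hB 1 1 (by rw [infPoleB_one hB]; exact Nat.zero_le _)
      ∈ Algebra.adjoin QQbar ((infGens hB : Finset (OInf hB)) : Set (OInf hB)) := by
  apply Algebra.subset_adjoin
  rw [Finset.mem_coe]
  exact Finset.mem_insert_self _ _

open Classical in
/-- level `j₀` -/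
lemma infFracT_mem_base (a : QQbar ⊗[ℚ] R) (ha : poleB 𝒞 a ≤ infJ0 𝒞 * 𝒞.e) :
    infFracT hB a (infJ0 𝒞) ha
      ∈ Algebra.adjoin QQbar ((infGens hB : Finset (OInf hB)) : Set (OInf hB)) := by
  obtain ⟨x, hx⟩ := hB.span (infJ0 𝒞 * 𝒞.e) ⟨a, (infPoleB_le_iff hB _ _).1 ha⟩
  have hx' : a = ∑ j, x j • ((toWBar 𝒞 _ (Module.finBasis ℚ (𝒞.W (infJ0 𝒞 * 𝒞.e)) j) :
      WBar 𝒞 (infJ0 𝒞 * 𝒞.e)) : QQbar ⊗[ℚ] R) := by
    have := congrArg (fun f : WBar 𝒞 (infJ0 𝒞 * 𝒞.e) => (f : QQbar ⊗[ℚ] R)) hx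
    simpa using this
  have key : infFracT hB a (infJ0 𝒞) ha
      = ∑ j, x j • infFracT hB _ (infJ0 𝒞) (infPoleB_basis hB j) := by
    apply Subtype.ext
    rw [infFracT_coe, AddSubmonoidClass.coe_finsetSum]
    simp only [Subalgebra.coe_smul, infFracT_coe]
    conv_lhs => rw [hx']
    rw [map_sum, Finset.sum_div]
    refine Finset.sum_congr rfl fun j _ => ?_
    rw [Algebra.smul_def, map_mul, Algebra.smul_def,
      IsScalarTower.algebraMap_apply QQbar (QQbar ⊗[ℚ] R) (FractionRing (QQbar ⊗[ℚ] R)),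
      mul_div_assoc]
  rw [key]
  refine Subalgebra.sum_mem _ fun j _ => Subalgebra.smul_mem _ ?_ _
  apply Algebra.subset_adjoin
  rw [Finset.mem_coe]
  exact Finset.mem_insert_of_mem (Finset.mem_image_of_mem _ (Finset.mem_univ j))

/-- all levels -/
lemma infFracT_mem (j : ℕ) (a : QQbar ⊗[ℚ] R) (ha : poleB 𝒞 a ≤ j * 𝒞.e) :
    infFracT hB a j ha
      ∈ Algebra.adjoin QQbar ((infGens hB : Finset (OInf hB)) : Set (OInf hB)) := by
  induction j generalizing a with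
  | zero =>
    -- `a / t ^ 0 = (a * t ^ j₀) / t ^ j₀`
    have h1 : poleB 𝒞 (a * tBar 𝒞 ^ infJ0 𝒞) ≤ infJ0 𝒞 * 𝒞.e := by
      refine le_trans (infPoleB_mul_le hB _ _) ?_
      have := infPoleB_pow_le hB (tBar 𝒞) (infJ0 𝒞)
      rw [infPoleB_tBar hB] at this
      omega
    have h2 : infFracT hB a 0 ha = infFracT hB _ (infJ0 𝒞) h1 := by
      apply Subtype.ext
      rw [infFracT_coe, infFracT_coe, map_mul, map_pow, ← infTF_def, pow_zero, div_one,
        mul_div_assoc, div_self (pow_ne_zero _ (infTF_ne_zero hB)), mul_one]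
    rw [h2]
    exact infFracT_mem_base hB _ h1
  | succ j ih =>
    by_cases hj : j + 1 ≤ infJ0 𝒞
    · -- `a / t ^ (j+1) = (a * t ^ (j₀ - j - 1)) / t ^ j₀`
      have h1 : poleB 𝒞 (a * tBar 𝒞 ^ (infJ0 𝒞 - (j + 1))) ≤ infJ0 𝒞 * 𝒞.e := by
        refine le_trans (infPoleB_mul_le hB _ _) ?_
        have := infPoleB_pow_le hB (tBar 𝒞) (infJ0 𝒞 - (j + 1))
        rw [infPoleB_tBar hB] at this
        have h3 : (j + 1) * 𝒞.e + (infJ0 𝒞 - (j + 1)) * 𝒞.e = infJ0 𝒞 * 𝒞.e := by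
          rw [← Nat.add_mul]
          congr 1
          omega
        omega
      have h2 : infFracT hB a (j + 1) ha = infFracT hB _ (infJ0 𝒞) h1 := by
        apply Subtype.ext
        rw [infFracT_coe, infFracT_coe, map_mul, map_pow, ← infTF_def]
        have ht := infTF_ne_zero (𝒞 := 𝒞) hB
        have hpow : infTF (𝒞 := 𝒞) ^ infJ0 𝒞
            = infTF (𝒞 := 𝒞) ^ (infJ0 𝒞 - (j + 1)) * infTF (𝒞 := 𝒞) ^ (j + 1) := by
          rw [← pow_add]
          congr 1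
          omega
        rw [hpow]
        field_simp
      rw [h2]
      exact infFracT_mem_base hB _ h1
    · -- `a = t a' + a''` with `a', a''` of level `j`
      have hj' : 𝒞.m₀ + 2 ≤ j := by
        unfold infJ0 at hj
        omega
      have he := 𝒞.e_pos
      obtain ⟨i, rfl⟩ : ∃ i, j = i + 1 := ⟨j - 1, by omega⟩
      have hM : 𝒞.m₀ ≤ i * 𝒞.e := by
        have : i * 1 ≤ i * 𝒞.e := Nat.mul_le_mul_left i he
        omega
      have hlev : i * 𝒞.e + 𝒞.e + 𝒞.e = (i + 1 + 1) * 𝒞.e := by ring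
      have hlev' : i * 𝒞.e + 𝒞.e = (i + 1) * 𝒞.e := by ring
      obtain ⟨a', h1, h2⟩ := infDescent hB (i * 𝒞.e) hM 𝒞.e a (by rw [hlev]; exact ha)
      rw [hlev'] at h1 h2
      have key : infFracT hB a (i + 1 + 1) ha
          = infFracT hB a' (i + 1) h1 + infFracT hB (a - tBar 𝒞 * a') (i + 1) h2
            * infFracT hB 1 1 (by rw [infPoleB_one hB]; exact Nat.zero_le _) := by
        apply Subtype.ext
        rw [Subalgebra.coe_add, Subalgebra.coe_mul, infFracT_coe, infFracT_coe, infFracT_coe,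
          infFracT_coe, map_sub, map_mul, map_one, ← infTF_def]
        have ht := infTF_ne_zero (𝒞 := 𝒞) hB
        field_simp
        ring
      rw [key]
      exact Subalgebra.add_mem _ (ih a' h1)
        (Subalgebra.mul_mem _ (ih _ h2) (infInvT_mem hB))

/-- **`OInf` is essentially of finite type over `ℚ̄`.** -/
lemma infO_eft : ∃ S : Finset (OInf hB), ∀ h : OInf hB, ∃ p q : OInf hB,
    p ∈ Algebra.adjoin QQbar (S : Set (OInf hB)) ∧ q ∈ Algebra.adjoin QQbar (S : Set (OInf hB)) ∧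
      IsUnit q ∧ h * q = p := by
  refine ⟨infGens hB, fun h => ?_⟩
  obtain ⟨a, b, hb, hab⟩ := infExists_frac (h : FractionRing (QQbar ⊗[ℚ] R))
  by_cases ha : a = 0
  · refine ⟨0, 1, Subalgebra.zero_mem _, Subalgebra.one_mem _, isUnit_one, ?_⟩
    rw [mul_one]
    apply Subtype.ext
    rw [hab, ha, map_zero, zero_div, Subalgebra.coe_zero]
  have hle : poleB 𝒞 a ≤ poleB 𝒞 b := by
    have := infVal_coe_le hB h
    rw [hab, infVal_frac hB a b ha hb, ← WithZero.exp_zero, WithZero.exp_le_exp] at this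
    omega
  have he := 𝒞.e_pos
  set j : ℕ := poleB 𝒞 b + 𝒞.m₀ + 1 with hj
  have hje : j ≤ j * 𝒞.e := by
    have : j * 1 ≤ j * 𝒞.e := Nat.mul_le_mul_left j he
    omega
  obtain ⟨c, hc0, hcp⟩ := infExists_poleB_eq hB (j * 𝒞.e - poleB 𝒞 b) (by omega)
  have hbc : poleB 𝒞 (b * c) = j * 𝒞.e := by
    rw [hB.pole_mul b c hb hc0, hcp]
    omega
  have hac : poleB 𝒞 (a * c) ≤ j * 𝒞.e := by
    rw [hB.pole_mul a c ha hc0, hcp]
    omega
  refine ⟨infFracT hB (a * c) j hac, infFracT hB (b * c) j hbc.le,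
    infFracT_mem hB j _ hac, infFracT_mem hB j _ hbc.le, ?_, ?_⟩
  · rw [infO_isUnit_iff, infFracT_coe, infVal_div_t_pow hB _ (mul_ne_zero hb hc0), hbc,
      sub_self, WithZero.exp_zero]
  · apply Subtype.ext
    rw [Subalgebra.coe_mul, infFracT_coe, infFracT_coe, hab, map_mul, map_mul]
    have hbF : algebraMap (QQbar ⊗[ℚ] R) (FractionRing (QQbar ⊗[ℚ] R)) b ≠ 0 := by
      intro h0
      exact hb (IsFractionRing.injective (QQbar ⊗[ℚ] R) (FractionRing (QQbar ⊗[ℚ] R))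
        (h0.trans (map_zero _).symm))
    have ht := infTF_ne_zero (𝒞 := 𝒞) hB
    field_simp

end eft

end Fermat.Agent.H89.MW

end
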