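/-
P-MW (S17), BLOCK C, row 849 [LPF-G-INF]: the place at `∞` of the datum.

`infPlace 𝒞 hB hN : Nonempty (InfPlace 𝒞)` : the valuation ring `OInf` of the pole-order valuation
on the fraction field of `ℚ̄ ⊗ R`, with uniformizer `u = b₁ / b₂` (`pole b₁ = m₀ + 1`,
`pole b₂ = m₀ + 2`), germ maps `f ↦ f * u ^ m`, and the centre map for the points having a value
outside the valuation ring.
-/
import Fermat.Agent.H89.MW.InfEft
import Fermat.Agent.H89.MW.InfCentre

set_option autoImplicit false

noncomputable section

open Module TensorProduct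

namespace Fermat.Agent.H89.MW

open Fermat.Agent.H92.MW

variable {R : Type} [CommRing R] [Algebra ℚ R] [IsDedekindDomain R]

/-- **[LPF-G-INF]** The place at `∞`. -/
theorem infPlace (𝒞 : MWDatum R) (hB : BarFacts 𝒞) (hN : NormInfStatement 𝒞) :
    Nonempty (InfPlace 𝒞) := by
  have : IsDomain (QQbar ⊗[ℚ] R) := 𝒞.bar_dedekind.toIsDomain
  exact ⟨{
    O := OInf hB
    u := infU hB
    u_irr := infU_irreducible hB
    res := infO_res hB
    eft := infO_eft hB
    germ := infGerm hB
    germ_mem := fun m n f hnm => infGerm_mem hB m n f hnm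
    germ_surj := fun m n hnm h => infGerm_surj hB m n hnm h
    centre := fun 𝒦 _ _ _ V hV ι P hP => infCentre hB hN 𝒦 V hV ι P hP }⟩

end Fermat.Agent.H89.MW

end
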