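/-
P-MW (S17), BLOCK C (sub-architect helper89): ASSEMBLY of the local product formula
`LPFStatement 𝒞` from `LatticeDetStatement` and `CoordStatement 𝒞`.
-/
import Fermat.Agent.H89.MW.LpfInterfaces

set_option autoImplicit false

noncomputable section

open Module TensorProduct

namespace Fermat.Agent.H89.MW

open Fermat.Agent.H92.MW

section newton

variable {𝒦 : Type} [Field 𝒦] {Cen : Type} {d : ℕ}

lemma newtonMatrix_apply_of_lt (c : Fin d → Cen) (z ν : Fin d → 𝒦) {a b : Fin d}
    (hab : a < b) : newtonMatrix c z ν a b = 0 := by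
  classical
  unfold newtonMatrix
  split_ifs with h
  · have hmem : a ∈ Finset.univ.filter (fun b' : Fin d => b' < b ∧ c b' = c b) := by
      simp [hab, h]
    rw [Finset.prod_eq_zero hmem (sub_self _), mul_zero]
  · rfl

lemma newtonMatrix_apply_self (c : Fin d → Cen) (z ν : Fin d → 𝒦) (a : Fin d) :
    newtonMatrix c z ν a a
      = open Classical in
        ν a * ∏ b' ∈ Finset.univ.filter (fun b' : Fin d => b' < a ∧ c b' = c a),
          (z a - z b') := by
  classical
  unfold newtonMatrix
  rw [if_pos rfl]

/-- The determinant of the Newton matrix. -/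
theorem det_newtonMatrix (c : Fin d → Cen) (z ν : Fin d → 𝒦) :
    (newtonMatrix c z ν).det
      = open Classical in
        ∏ a : Fin d, ν a * ∏ b' ∈ Finset.univ.filter (fun b' : Fin d => b' < a ∧ c b' = c a),
          (z a - z b') := by
  classical
  have hlow : (newtonMatrix c z ν).IsLowerTriangular := by
    intro a b hab
    exact newtonMatrix_apply_of_lt c z ν hab
  rw [Matrix.det_of_isLowerTriangular _ hlow]
  exact Finset.prod_congr rfl fun a _ => newtonMatrix_apply_self c z ν a

end newton

variable {R : Type} [CommRing R] [Algebra ℚ R] [IsDedekindDomain R]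

/-- **Assembly of LPF**: the local product formula follows from the lattice determinant lemma
and the existence of coordinates. -/
theorem lpf_of_coord (𝒞 : MWDatum R) (hL : LatticeDetStatement) (hC : CoordStatement 𝒞) :
    LPFStatement 𝒞 := by
  classical
  intro 𝒦 _ _ _ V hV
  obtain ⟨Cen, cen, z, π, hπ, hcoord⟩ := hC 𝒦 V hV
  refine ⟨fun P P' => if cen P = cen P' then V.valuation (z P - z P') ^ 𝒞.e else 1, ?_⟩
  intro m d hmd P hP
  obtain ⟨S, T, hS, hT, hST, hE⟩ := hcoord m d hmd P hP
  rw [hE, hL 𝒦 V d _ _ S T hS hT hST, det_newtonMatrix, map_prod, ← Finset.prod_pow]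
  simp only [map_mul, map_pow, map_prod, mul_pow, Finset.prod_mul_distrib]
  congr 1
  · rw [← Finset.prod_pow]
    refine Finset.prod_congr rfl fun a _ => ?_
    rw [← pow_mul, mul_comm, pow_mul, hπ]
  · rw [Finset.prod_comm]
    refine Finset.prod_congr rfl fun a _ => ?_
    rw [← Finset.prod_pow, Finset.prod_filter]
    refine Finset.prod_congr rfl fun b _ => ?_
    by_cases hba : b < a
    · by_cases hc : cen (P b) = cen (P a)
      · rw [if_pos ⟨hba, hc⟩, if_pos hba, if_pos hc, Valuation.map_sub_swap]
      · rw [if_neg (fun h => hc h.2), if_pos hba, if_neg hc]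
    · rw [if_neg (fun h => hba h.1), if_neg hba]

end Fermat.Agent.H89.MW

end
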