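/-
P-MW (S17), BLOCK C (row 695): the local product formula `LPFStatement 𝒞` for every datum.

Assembly of the rows `LPF-*` (sub-architect helper89):
* `lpf_of_coord`    (helper89, `LpfAssembly`)     LatticeDet + Coord ⟹ LPF
* `latticeDet`      (helper4,  row 793)           from Cauchy-Binet
* `coord_of_places` (helper44, row 797)           K9 + SEP + NEWTON + TAYLOR + places ⟹ Coord
* `separation`      (helper34, row 796), `newtonConv` (helper83, row 794),
  `taylor`          (helper12, row 795)
* `barFacts`        (helper35, row 845), `normInf` (helper65, row 846),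
  `jetsRb`          (helper48, row 847), `finSystem` (helper30, row 848),
  `infPlace`        (helper89, row 849), `geo_of_parts` (helper98, row 850)
* `interpolation`   (helper96, row 686), `cauchyBinetStatement` (helper40)
-/
import Fermat.Agent.H89.MW.LpfAssembly
import Fermat.Agent.H89.MW.InfPlace
import Fermat.Agent.H4.MW.LatticeDet
import Fermat.Agent.H83.MW.NewtonConv
import Fermat.Agent.H12.MW.Taylor
import Fermat.Agent.H34.MW.Separation
import Fermat.Agent.H44.MW.Coord
import Fermat.Agent.H35.MW.BarFacts
import Fermat.Agent.H65.MW.NormInf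
import Fermat.Agent.H48.MW.JetsRb
import Fermat.Agent.H30.MW.FinSystem
import Fermat.Agent.H98.MW.GeoAsm
import Fermat.Agent.H96.MW.Interpolation
import Fermat.Agent.H40.MW.CauchyBinet

set_option autoImplicit false

noncomputable section

open Module TensorProduct

namespace Fermat.Agent.H89.MW

open Fermat.Agent.H92.MW

variable {R : Type} [CommRing R] [Algebra ℚ R] [IsDedekindDomain R]

/-- **The geometry of the datum**: a place system with centres. -/
theorem geoStatement (𝒞 : MWDatum R) : GeoStatement 𝒞 := by
  have hB : BarFacts 𝒞 := Fermat.Agent.H35.MWBar.barFacts 𝒞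
  have hN : NormInfStatement 𝒞 := Fermat.Agent.H65.MW.normInf 𝒞 hB
  have hJ : JetsRbStatement 𝒞 := Fermat.Agent.H48.Jets.jetsRb 𝒞 hB
  obtain ⟨Fs⟩ := Fermat.Agent.H30.MW.finSystem 𝒞 hB
  obtain ⟨Ip⟩ := infPlace 𝒞 hB hN
  exact Fermat.Agent.H98.MW.Geo.geo_of_parts 𝒞 Fs Ip hJ

/-- **Coordinates** for every datum, from the interpolation statement. -/
theorem coordStatement (𝒞 : MWDatum R) (hK9 : InterpolationStatement) : CoordStatement 𝒞 := by
  obtain ⟨𝔖, hCen⟩ := geoStatement 𝒞
  exact Fermat.Agent.H44.MW.coord_of_places 𝒞 hK9 Fermat.Agent.H34.MW.separation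
    Fermat.Agent.H83.MW.newtonConv Fermat.Agent.H12.MW.taylor 𝔖 hCen

/-- **[MW-LPF] The local product formula** for every datum, from the interpolation statement and
the Cauchy-Binet statement. -/
theorem lpf (𝒞 : MWDatum R) (hK9 : InterpolationStatement) (hCB : CauchyBinetStatement) :
    LPFStatement 𝒞 :=
  lpf_of_coord 𝒞 (Fermat.Agent.H4.MW.latticeDet hCB) (coordStatement 𝒞 hK9)

/-- **[MW-LPF], unconditional**: the local product formula for every datum. -/
theorem lpfStatement (𝒞 : MWDatum R) : LPFStatement 𝒞 :=
  lpf 𝒞 Fermat.Agent.H96.MW.interpolation Fermat.Agent.H40.MW.cauchyBinetStatement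

end Fermat.Agent.H89.MW

end
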